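import Fermat.Agent.S15.Abs.A.In
import Fermat.Agent.S15.Out.Clean
import Fermat.Agent.S15.Abs.Main0

/-!
# S15 ABS-A: the output `AOut R (Kum.towerOf R)` and the abstract descent `AbsDescent`
-/

set_option autoImplicit false

noncomputable section

namespace Fermat.Agent.S15.Abs.A

open Fermat.Agent.S15 Fermat.Agent.S15.Abs.C Fermat.Agent.S15.V Fermat.Agent.S15.Lin
  Fermat.Agent.S15.Coh

variable {J : Type} [AddCommGroup J] [DistribMulAction GQ J] {p l : ℕ} [Fact l.Prime]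
  (R : Raw J p l)

/-- the link `J[l^∞] → 𝔾 = J[l^∞] / img Vb` -/
def linkOf : Link GQ J l (ctx R).GG where
  π := (ctx R).π
  surj := (ctx R).π_surj
  equiv := fun σ x => (ctx R).π_smul σ x
  div := fun x hx => by
    obtain ⟨z, hz, hzx⟩ := img_div (ctx R).Vb x ((ctx R).π_eq_zero.1 hx)
    exact ⟨z, (ctx R).π_eq_zero.2 hz, hzx⟩

theorem mem_KK_iff {x : J} :
    x ∈ (linkOf R).KK ↔ ∃ hx : x ∈ torL l J, (⟨x, hx⟩ : torL l J) ∈ img (ctx R).Vb := by
  rw [Link.mem_KK]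
  exact exists_congr fun hx => (ctx R).π_eq_zero

theorem sub_K0T_le : sub l (K0T R (adaptedOf R)) ≤ (ctx R).Vb := by
  refine (ctx R).out.largest.max _ ?_ le_sup_right
  intro g y hy
  exact rep_mem_sub (K0T R (adaptedOf R)) g
    (fun x hx => Eis.smul_mem_K0J (adaptedOf R) g hx) y hy

theorem K0J_le_KK : Eis.K0J (adaptedOf R) ≤ (linkOf R).KK := by
  intro x hx
  have hx' : x ∈ torL l J := Eis.K0J_le (adaptedOf R) hx
  refine (mem_KK_iff R).2 ⟨hx', img_mono (sub_K0T_le R) ?_⟩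
  rw [img_sub_of_div (H := K0T R (adaptedOf R)) (by rw [torInfT]; exact le_top) ?_]
  · exact hx
  · intro y hy
    obtain ⟨z, hz, hzy⟩ := Eis.K0J_div (adaptedOf R) hy
    exact ⟨⟨z, Eis.K0J_le (adaptedOf R) hz⟩, hz, Subtype.ext hzy⟩

theorem mem_torInfT (x : torL l J) : x ∈ torInf (torL l J) l := by
  rw [torInfT]; exact AddSubgroup.mem_top x

/-- THE OUTPUT OF ABS-A -/
def aOut : AOut R (Kum.towerOf R) where
  𝔾 := (ctx R).GG
  clean := (ctx R).clean (fun r => Eis.bigFilt (adaptedOf R) (linkOf R) (K0J_le_KK R) r)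
  link := linkOf R
  atL := by
    obtain ⟨c, hc⟩ := exists_pow_smul_mem_img_sub (finT R) (GmT R)
    refine ⟨c, fun x hx => ⟨l ^ c • x, ?_, map_nsmul _ _ _⟩⟩
    exact img_mono (le_sup_left : sub l (GmT R) ≤ (linData R).Vm) (hc x hx (mem_torInfT x))
  atP := by
    obtain ⟨c, hc⟩ := exists_pow_smul_mem_img_sub (finT R) (WT R)
    refine ⟨c, fun x hx => ⟨l ^ c • x, ?_, map_nsmul _ _ _⟩⟩
    exact img_mono (le_sup_left : sub l (WT R) ≤ (linData R).Vw ⊔ (ctx R).Vb)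
      (hc x hx (mem_torInfT x))
  c_not_mem := by
    intro h
    obtain ⟨hc, h1⟩ := (mem_KK_iff R).1 h
    have h2 : (⟨R.c, hc⟩ : torL l J) ∈ img (sub l (GmT R) ⊔ sub l (K0T R (adaptedOf R))) :=
      img_mono (ctx R).out.largest.le h1
    rw [img_sup] at h2
    obtain ⟨g, hg, k, hk, hgk⟩ := AddSubgroup.mem_sup.1 h2
    exact Eis.c_ne_add (adaptedOf R) (img_sub_le (GmT R) hg) g.2
      (img_sub_le (K0T R (adaptedOf R)) hk) (congrArg Subtype.val hgk).symm

end Fermat.Agent.S15.Abs.A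

namespace Fermat.Agent.S15.Abs

/-- **THE ABSTRACT EISENSTEIN DESCENT.** -/
theorem absDescent : AbsDescent :=
  absDescent_of_aOut fun _ _ _ _ _ R =>
    haveI : Fact (Nat.Prime _) := ⟨R.hℓ⟩
    ⟨A.aOut R⟩

end Fermat.Agent.S15.Abs
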