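import Fermat.Agent.S15.Abs.A.Chi
import Fermat.Agent.S15.Kum.Frob
import Fermat.Agent.GR.H.Cyc
import Fermat.Agent.S05.Inertia

/-!
# S15 ABS-A, BRIDGE-IN, file `Arith`: values of the `l`-adic cyclotomic character
-/

set_option autoImplicit false

noncomputable section

namespace Fermat.Agent.S15.Abs.A

open Fermat.Agent.S15

variable (l : ℕ) [Fact l.Prime]

theorem Arith_not_dvd {q : ℕ} (hq : q.Prime) (hql : q ≠ l) (r : ℕ) : ¬ q ∣ l ^ r := fun h =>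
  hql ((Nat.prime_dvd_prime_iff_eq hq (Fact.out : l.Prime)).1 (hq.dvd_of_dvd_pow h))

/-- inertia at `q ≠ l` acts trivially on the `l`-power roots of unity. -/
theorem inertia_fix_root {q : ℕ} (hq : q.Prime) (hql : q ≠ l) (A : ValuationSubring Qb)
    (hA : A.LiesOverPrime q) {σ : GQ} (hσ : σ ∈ A.inertiaSubgroupIn ℚ) (r : ℕ) (ξ : Qb)
    (hξ : ξ ^ (l ^ r) = 1) : σ ξ = ξ := by
  have hpos : 0 < l ^ r := pow_pos (Fact.out : l.Prime).pos r
  have hξA : ξ ∈ A := Lib.Frobenius.isIntegral_mem A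
    (IsIntegral.of_pow hpos (by rw [hξ]; exact isIntegral_one))
  exact GR.H.Cyc_eq_of_sub_mem A q hq hA (l ^ r) (Arith_not_dvd l hq hql r) _ _
    (by rw [← map_pow, hξ, map_one]) hξ (S05.inertia_sub_mem A hσ hξA)

theorem chiQ_inertia {q : ℕ} (hq : q.Prime) (hql : q ≠ l) (A : ValuationSubring Qb)
    (hA : A.LiesOverPrime q) {σ : GQ} (hσ : σ ∈ A.inertiaSubgroupIn ℚ) : chiQ l σ = 1 :=
  chiQ_eq_one l (inertia_fix_root l hq hql A hA hσ)

theorem chiZ_inertia {q : ℕ} (hq : q.Prime) (hql : q ≠ l) (A : ValuationSubring Qb)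
    (hA : A.LiesOverPrime q) {σ : GQ} (hσ : σ ∈ A.inertiaSubgroupIn ℚ) : chiZ l σ = 1 := by
  have := chiZ_eq_natCast l (σ := σ) (k := 1)
    (fun r ξ hξ => by rw [inertia_fix_root l hq hql A hA hσ r ξ hξ, pow_one])
  simpa using this

/-- a Frobenius element at `q ≠ l` has `χ = q`. -/
theorem isCyc_frob {q : ℕ} (hq : q.Prime) (hql : q ≠ l) (A : ValuationSubring Qb)
    (hA : A.LiesOverPrime q) {φ : GQ} (hφ : A.IsFrobeniusAt φ q) (r : ℕ) : IsCyc l r φ q :=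
  fun ξ hξ => GR.H.frobenius_rootOfUnity A q hq hA φ hφ (l ^ r) (Arith_not_dvd l hq hql r) ξ hξ

theorem chiQ_frob {q : ℕ} (hq : q.Prime) (hql : q ≠ l) (A : ValuationSubring Qb)
    (hA : A.LiesOverPrime q) {φ : GQ} (hφ : A.IsFrobeniusAt φ q) : chiQ l φ = q :=
  chiQ_eq_natCast l (isCyc_frob l hq hql A hA hφ)

/-- the cyclotomic character is not trivial on the inertia group at `l`. -/
theorem exists_inertia_chiQ_ne_one (A : ValuationSubring Qb) (hA : A.LiesOverPrime l) :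
    ∃ σ ∈ A.inertiaSubgroupIn ℚ, chiQ l σ ≠ 1 := by
  have hl : l.Prime := Fact.out
  obtain ⟨ζ, hζ⟩ := HasEnoughRootsOfUnity.exists_primitiveRoot Qb (l ^ 2)
  have ha : ¬ l ∣ 1 + l := by
    intro h
    have : l ∣ 1 := (Nat.dvd_add_left (dvd_refl l)).1 h
    exact hl.one_lt.ne' (Nat.dvd_one.1 this)
  obtain ⟨σ, hσ, hσζ⟩ := Kum.inertia_surj hl hA hζ ha
  refine ⟨σ, hσ, chiQ_ne_one l hζ.pow_eq_one ?_⟩
  rw [hσζ]
  intro h
  have h1 : ζ ^ l = 1 := by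
    rw [pow_add, pow_one] at h
    exact mul_left_cancel₀ (hζ.ne_zero (pow_ne_zero _ hl.ne_zero)) (h.trans (mul_one ζ).symm)
  have h2 := hζ.dvd_of_pow_eq_one l h1
  have h3 : l ^ 2 ≤ l := Nat.le_of_dvd hl.pos h2
  nlinarith [hl.one_lt]

end Fermat.Agent.S15.Abs.A
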