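import Fermat.Agent.S15.Abs.A.Chi
import Fermat.Agent.S15.Abs.V.Export
import Fermat.Agent.S15.Abs.Wire
import Fermat.Agent.S15.Lin.Defs

/-!
# S15 ABS-A, BRIDGE-IN, file `Base`: the TYPE `G = torL l J` with its Galois action, `T_l`, the
subgroups `Gm`, `W` and the hypotheses of the dictionary `V`
-/

set_option autoImplicit false

noncomputable section

namespace Fermat.Agent.S15.Abs.A

open Fermat.Agent.S15 Fermat.Agent.S15.Abs.C Fermat.Agent.S15.V

section action

variable {Γ : Type*} [Group Γ] {J : Type*} [AddCommGroup J] [DistribMulAction Γ J] {l : ℕ}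

/-- the action of `Γ` on the type `J[l^∞]` -/
instance torLAction : DistribMulAction Γ (torL l J) where
  smul σ x := ⟨σ • x.1, smul_mem_torL σ x.2⟩
  one_smul x := Subtype.ext (one_smul _ _)
  mul_smul a b x := Subtype.ext (mul_smul _ _ _)
  smul_zero a := Subtype.ext (smul_zero _)
  smul_add a x y := Subtype.ext (smul_add _ _ _)

@[simp] theorem coe_smul_torL (σ : Γ) (x : torL l J) : ((σ • x : torL l J) : J) = σ • (x : J) := rfl

/-- the restriction of a subgroup of `J` to `J[l^∞]` -/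
def resT (l : ℕ) (H : AddSubgroup J) : AddSubgroup (torL l J) := H.comap (torL l J).subtype

@[simp] theorem mem_resT {H : AddSubgroup J} {x : torL l J} : x ∈ resT l H ↔ x.1 ∈ H := Iff.rfl

theorem coe_nsmul_torL (n : ℕ) (x : torL l J) : ((n • x : torL l J) : J) = n • (x : J) := rfl

theorem nsmul_eq_zero_iff_torL (n : ℕ) (x : torL l J) : n • x = 0 ↔ n • (x : J) = 0 :=
  ⟨fun h => congrArg Subtype.val h, fun h => Subtype.ext h⟩

end action

variable {J : Type} [AddCommGroup J] [DistribMulAction GQ J] {p l : ℕ}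

theorem finT (R : Raw J p l) : {x : torL l J | l • x = 0}.Finite := inst_fin (torL l J) R.fin

theorem divT (R : Raw J p l) (x : torL l J) : ∃ z : torL l J, l • z = x :=
  inst_div (torL l J) (fun _ => Iff.rfl) R.div x

theorem divT' (R : Raw J p l) : ∀ x ∈ torInf (torL l J) l, ∃ z : torL l J, l • z = x :=
  fun x _ => divT R x

theorem torInfT : torInf (torL l J) l = ⊤ := inst_torInf (torL l J) (fun _ => Iff.rfl)

theorem contT (R : Raw J p l) (y : torL l J) : IsLocallyConstant (fun σ : GQ => σ • y) := by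
  have h := raw_cont R y.1
  rw [IsLocallyConstant.iff_exists_open] at h ⊢
  intro σ
  obtain ⟨U, hU, hσ, h⟩ := h σ
  exact ⟨U, hU, hσ, fun τ hτ => Subtype.ext (h τ hτ)⟩

/-- `T_l` on `J[l^∞]` -/
def TlT (R : Raw J p l) : torL l J →+ torL l J where
  toFun x := ⟨R.Tℓ x.1, by
    obtain ⟨r, hr⟩ := x.2
    exact ⟨r, R.Tℓ_mem r x.1 hr⟩⟩
  map_zero' := by
    apply Subtype.ext
    have h := R.Tℓ_add 0 (torInf J l).zero_mem 0 (torInf J l).zero_mem
    rw [add_zero] at h
    exact left_eq_add.1 h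
  map_add' x y := Subtype.ext (R.Tℓ_add x.1 x.2 y.1 y.2)

@[simp] theorem coe_TlT (R : Raw J p l) (x : torL l J) : ((TlT R x : torL l J) : J) = R.Tℓ x.1 := rfl

/-- `Gm = J1(A_l) ∩ J[l^∞]` -/
def GmT (R : Raw J p l) : AddSubgroup (torL l J) := resT l (R.J1 R.Aℓ)

/-- `W` -/
def WT (R : Raw J p l) : AddSubgroup (torL l J) := resT l R.W

end Fermat.Agent.S15.Abs.A
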