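import Fermat.Agent.S15.Abs.Defs

/-!
# S15 ABS-A, BRIDGE-IN, file `Chi`: the `l`-adic cyclotomic character of `GQ`

`chiZ l : GQ →* ℤ_[l]`, `chiQ l : GQ →* ℚ_[l]`, `chiN l r σ : ℕ` (the residue modulo `l ^ r`).
-/

set_option autoImplicit false

noncomputable section

namespace Fermat.Agent.S15.Abs.A

open Fermat.Agent.S15

variable (l : ℕ) [Fact l.Prime]

instance Chi_enough (i : ℕ) : HasEnoughRootsOfUnity Qb (l ^ i) :=
  haveI : NeZero (l ^ i) := ⟨pow_ne_zero _ (Fact.out : l.Prime).ne_zero⟩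
  haveI : NeZero ((l ^ i : ℕ) : Qb) := ⟨by exact_mod_cast pow_ne_zero _ (Fact.out : l.Prime).ne_zero⟩
  inferInstance

/-- the `l`-adic cyclotomic character, with values in `ℤ_l` -/
def chiZ : GQ →* ℤ_[l] :=
  (Units.coeHom ℤ_[l]).comp ((cyclotomicCharacter Qb l).comp (MulSemiringAction.toRingAut GQ Qb))

/-- the `l`-adic cyclotomic character, with values in `ℚ_l` -/
def chiQ : GQ →* ℚ_[l] := (PadicInt.Coe.ringHom (p := l) : ℤ_[l] →* ℚ_[l]).comp (chiZ l)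

theorem chiQ_apply (σ : GQ) : chiQ l σ = (chiZ l σ : ℚ_[l]) := rfl

/-- the residue of `χ(σ)` modulo `l ^ r`, as a natural number -/
def chiN (r : ℕ) (σ : GQ) : ℕ := (PadicInt.toZModPow r (chiZ l σ)).val

theorem isCyc_chiN (r : ℕ) (σ : GQ) : IsCyc l r σ (chiN l r σ) := by
  intro ζ hζ
  exact cyclotomicCharacter.spec l (MulSemiringAction.toRingAut GQ Qb σ) ζ hζ

theorem chiZ_sub_chiN_mem (r : ℕ) (σ : GQ) :
    chiZ l σ - (chiN l r σ : ℤ_[l]) ∈ Ideal.span {(l : ℤ_[l]) ^ r} := by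
  haveI : NeZero (l ^ r) := ⟨pow_ne_zero _ (Fact.out : l.Prime).ne_zero⟩
  rw [← PadicInt.ker_toZModPow, RingHom.mem_ker, map_sub, map_natCast, chiN, ZMod.natCast_zmod_val,
    sub_self]

/-- two exponents for the same `σ` are congruent modulo `l ^ r`. -/
theorem IsCyc_modEq {r : ℕ} {σ : GQ} {k k' : ℕ} (h : IsCyc l r σ k) (h' : IsCyc l r σ k') :
    k ≡ k' [MOD l ^ r] := by
  obtain ⟨ζ, hζ⟩ := HasEnoughRootsOfUnity.exists_primitiveRoot Qb (l ^ r)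
  have h1 : ζ ^ k = ζ ^ k' := by rw [← h ζ hζ.pow_eq_one, ← h' ζ hζ.pow_eq_one]
  have hk : 0 < l ^ r := pow_pos (Fact.out : l.Prime).pos r
  rw [pow_eq_pow_mod k hζ.pow_eq_one, pow_eq_pow_mod k' hζ.pow_eq_one] at h1
  exact hζ.pow_inj (Nat.mod_lt _ hk) (Nat.mod_lt _ hk) h1

theorem chiZ_sub_mem {r : ℕ} {σ : GQ} {k : ℕ} (h : IsCyc l r σ k) :
    chiZ l σ - (k : ℤ_[l]) ∈ Ideal.span {(l : ℤ_[l]) ^ r} := by
  have h1 := IsCyc_modEq l h (isCyc_chiN l r σ)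
  have h2 : ((k : ℤ_[l]) - (chiN l r σ : ℤ_[l])) ∈ Ideal.span {(l : ℤ_[l]) ^ r} := by
    rw [← PadicInt.ker_toZModPow, RingHom.mem_ker, map_sub, map_natCast, map_natCast, sub_eq_zero]
    exact (ZMod.natCast_eq_natCast_iff _ _ _).2 h1
  have h3 := (Ideal.span {(l : ℤ_[l]) ^ r}).sub_mem (chiZ_sub_chiN_mem l r σ) h2
  have h4 : chiZ l σ - (chiN l r σ : ℤ_[l]) - ((k : ℤ_[l]) - (chiN l r σ : ℤ_[l])) =
      chiZ l σ - (k : ℤ_[l]) := by ring
  rwa [h4] at h3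

/-- `χ(σ) = k` if `σ ζ = ζ ^ k` for all `l`-power roots of unity. -/
theorem chiZ_eq_natCast {σ : GQ} {k : ℕ} (h : ∀ r, IsCyc l r σ k) : chiZ l σ = k := by
  refine PadicInt.ext_of_toZModPow.1 fun r => ?_
  have := chiZ_sub_mem l (h r)
  rwa [← PadicInt.ker_toZModPow, RingHom.mem_ker, map_sub, sub_eq_zero] at this

theorem chiQ_eq_natCast {σ : GQ} {k : ℕ} (h : ∀ r, IsCyc l r σ k) : chiQ l σ = k := by
  rw [chiQ_apply, chiZ_eq_natCast l h]
  simp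

theorem chiQ_eq_one {σ : GQ} (h : ∀ (r : ℕ) (ξ : Qb), ξ ^ (l ^ r) = 1 → σ ξ = ξ) :
    chiQ l σ = 1 := by
  have := chiQ_eq_natCast l (σ := σ) (k := 1) (fun r ξ hξ => by rw [h r ξ hξ, pow_one])
  simpa using this

/-- `χ(σ) ≠ 1` if `σ` moves some `l`-power root of unity. -/
theorem chiQ_ne_one {σ : GQ} {r : ℕ} {ξ : Qb} (hξ : ξ ^ (l ^ r) = 1) (h : σ ξ ≠ ξ) :
    chiQ l σ ≠ 1 := by
  intro h1
  have h2 : chiZ l σ = 1 := by
    have : (chiZ l σ : ℚ_[l]) = ((1 : ℤ_[l]) : ℚ_[l]) := by rw [← chiQ_apply, h1]; simp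
    exact Subtype.ext this
  apply h
  have h3 := isCyc_chiN l r σ ξ hξ
  rw [h3, chiN, h2, map_one, ZMod.val_one_eq_one_mod, ← pow_eq_pow_mod 1 hξ, pow_one]

/-- the cyclotomic character is locally constant modulo `l ^ r`. -/
theorem isLocallyConstant_chiZ (r : ℕ) :
    IsLocallyConstant (fun σ : GQ => PadicInt.toZModPow r (chiZ l σ)) := by
  haveI : NeZero (l ^ r) := ⟨pow_ne_zero _ (Fact.out : l.Prime).ne_zero⟩
  obtain ⟨ζ, hζ⟩ := HasEnoughRootsOfUnity.exists_primitiveRoot Qb (l ^ r)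
  have hev : IsLocallyConstant (fun σ : GQ => σ ζ) := by
    rw [IsLocallyConstant.iff_exists_open]
    intro σ₀
    have hfd : FiniteDimensional ℚ (IntermediateField.adjoin ℚ {ζ}) :=
      IntermediateField.adjoin.finiteDimensional
        ((AlgebraicClosure.isAlgebraic ℚ).isIntegral.isIntegral ζ)
    refine ⟨(fun σ : GQ => σ₀⁻¹ * σ) ⁻¹'
      ((IntermediateField.adjoin ℚ {ζ}).fixingSubgroup : Set GQ), ?_, ?_, ?_⟩
    · exact ((IntermediateField.adjoin ℚ {ζ}).fixingSubgroup_isOpen).preimage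
        (continuous_const_mul σ₀⁻¹)
    · show σ₀⁻¹ * σ₀ ∈ (IntermediateField.adjoin ℚ {ζ}).fixingSubgroup
      rw [inv_mul_cancel]; exact one_mem _
    · intro σ hσ
      have h1 : σ₀⁻¹ * σ ∈ (IntermediateField.adjoin ℚ {ζ}).fixingSubgroup := hσ
      have h2 : (σ₀⁻¹ * σ) ζ = ζ :=
        (IntermediateField.mem_fixingSubgroup_iff _ _).mp h1 ζ
          (IntermediateField.mem_adjoin_simple_self ℚ ζ)
      have h3 : σ₀ ((σ₀⁻¹ * σ) ζ) = σ ζ := by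
        rw [← AlgEquiv.mul_apply, mul_inv_cancel_left]
      rw [← h3, h2]
  let g : Qb → ZMod (l ^ r) := fun w => Classical.epsilon (fun k : ZMod (l ^ r) => w = ζ ^ k.val)
  have hg : ∀ σ : GQ, PadicInt.toZModPow r (chiZ l σ) = g (σ ζ) := by
    intro σ
    have h1 : σ ζ = ζ ^ (PadicInt.toZModPow r (chiZ l σ)).val := isCyc_chiN l r σ ζ hζ.pow_eq_one
    have h2 : σ ζ = ζ ^ (g (σ ζ)).val :=
      Classical.epsilon_spec (p := fun k : ZMod (l ^ r) => σ ζ = ζ ^ k.val) ⟨_, h1⟩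
    exact ZMod.val_injective _ (hζ.pow_inj (ZMod.val_lt _) (ZMod.val_lt _) (h1.symm.trans h2))
  simp_rw [hg]
  exact hev.comp g

end Fermat.Agent.S15.Abs.A
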