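import Fermat.Agent.S15.Abs.A.Mink
import Fermat.Agent.S15.Eis.Export
import Fermat.Agent.S15.Kum.For

/-!
# S15 ABS-A, BRIDGE-IN, file `Fields`: all the fields of `LinData` for `V = VV (torL l J) l`
-/

set_option autoImplicit false

noncomputable section

namespace Fermat.Agent.S15.Abs.A

open Fermat.Agent.S15 Fermat.Agent.S15.Abs.C Fermat.Agent.S15.V Fermat.Agent.S15.Lin
  Fermat.Agent.S15.Coh

variable {J : Type} [AddCommGroup J] [DistribMulAction GQ J] {p l : ℕ} [Fact l.Prime]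
  (R : Raw J p l) {T : ArithTower GQ l} (hT : Eis.Adapted R T)

/-- the non-Eisenstein part, as a subgroup of the type `J[l^∞]` -/
def K0T : AddSubgroup (torL l J) := resT l (Eis.K0J hT)

/-- `Vm = V(Gm) + V(K0)` -/
def VmT : Submodule ℚ_[l] (VV (torL l J) l) := sub l (GmT R) ⊔ sub l (K0T R hT)

/-- `Vw = V(W)` -/
def VwT : Submodule ℚ_[l] (VV (torL l J) l) := sub l (WT R)

/-- `T_l` on `V` -/
def TlV : VV (torL l J) l →ₗ[ℚ_[l]] VV (torL l J) l := map l (TlT R)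

local notation "ρ" => rep (torL l J) l GQ
local notation "χ" => chiQ l

theorem natCast_smul_apply (n : ℕ) (f : VV (torL l J) l) (x : ℚ_[l]) :
    (((n : ℚ_[l]) • f) x : torL l J) = n • f x := by
  rw [natCast_smul]; rfl

include R in
theorem fld_ch : CH ρ χ :=
  ch_of_level fun r σ k hk τ x hx =>
    Subtype.ext (R.ch r σ k hk τ x.1 ((nsmul_eq_zero_iff_torL _ x).1 hx))

theorem fld_t_Vm : ∀ g, ∀ v ∈ VmT R hT, tOp ρ χ g v ∈ VmT R hT := by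
  intro g v hv
  obtain ⟨a, ha, b, hb, rfl⟩ := Submodule.mem_sup.1 hv
  rw [map_add]
  refine Submodule.add_mem _ (Submodule.mem_sup_left ?_) (Submodule.mem_sup_right ?_)
  · exact tOp_mem_sub (GmT R) (fun r σ k hk x hx hxm =>
      R.t_J1 r σ k hk x.1 ((nsmul_eq_zero_iff_torL _ x).1 hx) hxm) g a ha
  · exact tOp_mem_sub (K0T R hT) (fun r σ k _ x _ hxm => Eis.t_mem_K0J hT σ k hxm) g b hb

theorem fld_Il_quot : ∀ σ ∈ R.Aℓ.inertiaSubgroupIn ℚ, ∀ v, ρ σ v - v ∈ VmT R hT :=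
  fun σ hσ v => Submodule.mem_sup_left fun x =>
    R.J1_inert l R.hℓ R.hℓp R.Aℓ R.hAℓ σ hσ (v x).1

theorem fld_dec_Vm : ∀ φ ∈ R.Aℓ.decompositionSubgroup ℚ, ∀ v ∈ VmT R hT, ρ φ v ∈ VmT R hT := by
  intro φ hφ v hv
  obtain ⟨a, ha, b, hb, rfl⟩ := Submodule.mem_sup.1 hv
  rw [map_add]
  refine Submodule.add_mem _ (Submodule.mem_sup_left ?_) (Submodule.mem_sup_right ?_)
  · exact fun x => R.J1_decomp l R.hℓ R.hℓp R.Aℓ R.hAℓ φ hφ _ (ha x)
  · exact fun x => Eis.smul_mem_K0J hT φ (hb x)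

theorem fld_Tl_comm : ∀ g v, TlV R (ρ g v) = ρ g (TlV R v) := by
  intro g v
  ext x
  exact R.Tℓ_gal g (v x).1 (v x).2

theorem fld_Tl_Vm : ∀ v ∈ VmT R hT, TlV R v ∈ VmT R hT := by
  intro v hv
  obtain ⟨a, ha, b, hb, rfl⟩ := Submodule.mem_sup.1 hv
  rw [map_add]
  refine Submodule.add_mem _ (Submodule.mem_sup_left ?_) (Submodule.mem_sup_right ?_)
  · exact fun x => R.Tℓ_J1 _ (a x).2 (ha x)
  · exact fun x => Eis.Tl_mem_K0J hT (hb x)

theorem fld_l_ne : (l : ℚ_[l]) ≠ 1 := by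
  have : l ≠ 1 := (Fact.out : l.Prime).one_lt.ne'
  exact_mod_cast this

theorem fld_es {φ : GQ} (hφ : R.Aℓ.IsFrobeniusAt φ l) :
    ∀ v, ρ φ (ρ φ v) - TlV R (ρ φ v) + (l : ℚ_[l]) • v ∈ VmT R hT := by
  intro v
  refine Submodule.mem_sup_left fun x => ?_
  have h := R.es_ℓ φ hφ (v x).1 (v x).2
  have h1 : ((ρ φ (ρ φ v) - TlV R (ρ φ v) + (l : ℚ_[l]) • v) x : torL l J) =
      φ • φ • v x - TlT R (φ • v x) + l • v x := by
    rw [V.add_apply, V.sub_apply, natCast_smul_apply]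
    rfl
  rw [h1]
  exact h

theorem fld_finite_coe {S : Set J} (hS : S.Finite) : {x : torL l J | x.1 ∈ S}.Finite :=
  hS.preimage Subtype.val_injective.injOn

theorem fld_ne1 : ∀ v, TlV R v = (1 + (l : ℚ_[l])) • v → v = 0 := by
  intro v hv
  refine eq_zero_of_finite (finT R) _ (fld_finite_coe R.ne_ℓ) v fun x => ⟨(v x).2, ?_⟩
  have h1 : (TlV R v) x = ((1 + (l : ℚ_[l])) • v) x := by rw [hv]
  have h2 : (1 + (l : ℚ_[l])) = ((1 + l : ℕ) : ℚ_[l]) := by push_cast; rfl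
  rw [h2, natCast_smul_apply] at h1
  exact congrArg Subtype.val h1

theorem fld_ne2 : ∀ v, TlV R v + (1 + (l : ℚ_[l])) • v = 0 → v = 0 := by
  intro v hv
  refine eq_zero_of_finite (finT R) _ (fld_finite_coe R.ne_ℓ') v fun x => ⟨(v x).2, ?_⟩
  have h1 : (TlV R v + (1 + (l : ℚ_[l])) • v) x = (0 : VV (torL l J) l) x := by rw [hv]
  have h2 : (1 + (l : ℚ_[l])) = ((1 + l : ℕ) : ℚ_[l]) := by push_cast; rfl
  rw [h2, V.add_apply, natCast_smul_apply] at h1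
  exact congrArg Subtype.val h1

theorem fld_Vw_fix : ∀ σ ∈ R.Ap.inertiaSubgroupIn ℚ, ∀ w ∈ VwT R, ρ σ w = w := by
  intro σ hσ w hw
  ext x
  exact R.W_fix σ hσ _ (hw x)

theorem fld_Ip_quot : ∀ σ ∈ R.Ap.inertiaSubgroupIn ℚ, ∀ v, ρ σ v - v ∈ VwT R :=
  fun σ hσ v x => R.W_inert σ hσ (v x).1
    ((torL l J).sub_mem (smul_mem_torL σ (v x).2) (v x).2)

include R in
theorem fld_pp_ne : ((p : ℚ_[l])) ^ 2 ≠ 1 := by
  have h : p ^ 2 ≠ 1 := by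
    have := R.hp.one_lt
    intro h
    nlinarith
  exact_mod_cast h

theorem fld_dec_Vw : ∀ φ ∈ R.Ap.decompositionSubgroup ℚ, ∀ w ∈ VwT R, ρ φ w ∈ VwT R :=
  fun φ hφ w hw x => R.W_decomp φ hφ _ (hw x)

theorem fld_φp_sq {φ : GQ} (hφ : R.Ap.IsFrobeniusAt φ p) :
    ∀ w ∈ VwT R, ρ φ (ρ φ w) = (p : ℚ_[l]) ^ 2 • w := by
  intro w hw
  ext x
  have h2 : (p : ℚ_[l]) ^ 2 = ((p ^ 2 : ℕ) : ℚ_[l]) := by push_cast; rfl
  rw [h2, natCast_smul_apply]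
  exact R.W_frob φ hφ _ (hw x)

include R in
theorem fld_ne {q : ℕ} (hq : q.Prime) (hqp : q ≠ p) (hql : q ≠ l) (A : ValuationSubring Qb)
    (hA : A.LiesOverPrime q) {φ : GQ} (hφ : A.IsFrobeniusAt φ q) :
    ∀ v, tOp ρ χ φ v = (1 + χ φ) • v → v = 0 := by
  intro v hv
  refine eq_zero_of_finite (finT R) _ (fld_finite_coe (R.ne q hq hqp hql A hA φ hφ)) v
    fun x => ⟨(v x).2, ?_⟩
  obtain ⟨r, hr⟩ := apply_mem_torInf v x
  have h1 : (tOp ρ χ φ v) x = ((1 + χ φ) • v) x := by rw [hv]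
  have h2 : (1 + χ φ) = ((1 + q : ℕ) : ℚ_[l]) := by
    rw [chiQ_frob l hq hql A hA hφ]; push_cast; rfl
  rw [h2, natCast_smul_apply, tOp_apply_level φ v x hr (isCyc_frob l hq hql A hA hφ r)] at h1
  exact congrArg Subtype.val h1

end Fermat.Agent.S15.Abs.A
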