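import Fermat.Agent.S15.Abs.A.Fields
import Fermat.Agent.S15.Out.Ctx

/-!
# S15 ABS-A, BRIDGE-IN, file `In`: the assembly `Raw ⇒ LinData ⇒ Out.Ctx`

`T := Kum.towerOf R`, `G := torL l J` (as a type), `V := VV G l`.
-/

set_option autoImplicit false

noncomputable section

namespace Fermat.Agent.S15.Abs.A

open Fermat.Agent.S15 Fermat.Agent.S15.Abs.C Fermat.Agent.S15.V Fermat.Agent.S15.Lin
  Fermat.Agent.S15.Coh

variable {J : Type} [AddCommGroup J] [DistribMulAction GQ J] {p l : ℕ} [Fact l.Prime]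
  (R : Raw J p l)

omit [Fact l.Prime] in
/-- `Kum.towerOf R` is adapted to `R` -/
theorem adaptedOf : Eis.Adapted R (Kum.towerOf R) := Eis.Adapted.of_towerFor (Kum.towerFor_towerOf R)

/-- a Frobenius element at `A_p` -/
def frobP : GQ := (Lib.Frobenius.exists_isFrobeniusAt_of_liesOverPrime R.Ap R.hp R.hAp).choose

omit [Fact l.Prime] in
theorem frobP_spec : R.Ap.IsFrobeniusAt (frobP R) p :=
  (Lib.Frobenius.exists_isFrobeniusAt_of_liesOverPrime R.Ap R.hp R.hAp).choose_spec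

/-- a Frobenius element at `A₀` (over `q₀ ≠ p, l`) -/
def frob0 : GQ := (Lib.Frobenius.exists_isFrobeniusAt_of_liesOverPrime R.A₀ R.hq₀ R.hA₀).choose

omit [Fact l.Prime] in
theorem frob0_spec : R.A₀.IsFrobeniusAt (frob0 R) R.q₀ :=
  (Lib.Frobenius.exists_isFrobeniusAt_of_liesOverPrime R.A₀ R.hq₀ R.hA₀).choose_spec

/-- BRIDGE-IN: the linear data attached to the raw data. -/
def linData : LinData ℚ_[l] (VV (torL l J) l) GQ where
  ρ := rep (torL l J) l GQ
  χ := chiQ l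
  ch := fld_ch R
  Vm := VmT R (adaptedOf R)
  t_Vm := fld_t_Vm R (adaptedOf R)
  Il := R.Aℓ.inertiaSubgroupIn ℚ
  Il_quot := fld_Il_quot R (adaptedOf R)
  σ₀ := (exists_inertia_chiQ_ne_one l R.Aℓ R.hAℓ).choose
  σ₀_mem := (exists_inertia_chiQ_ne_one l R.Aℓ R.hAℓ).choose_spec.1
  σ₀_ne := (exists_inertia_chiQ_ne_one l R.Aℓ R.hAℓ).choose_spec.2
  φ := Kum.frobOf R
  χ_φ := chiQ_eq_one l (Kum.frobOf_fix R)
  φ_Vm := fld_dec_Vm R (adaptedOf R) _ (Kum.frobOf_isFrobeniusAt R).mem_decompositionSubgroup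
  Tl := TlV R
  Tl_comm := fld_Tl_comm R
  Tl_Vm := fld_Tl_Vm R (adaptedOf R)
  l := (l : ℚ_[l])
  l_ne := fld_l_ne
  es := fld_es R (adaptedOf R) (Kum.frobOf_isFrobeniusAt R)
  ne1 := fld_ne1 R
  ne2 := fld_ne2 R
  Ip := R.Ap.inertiaSubgroupIn ℚ
  Vw := VwT R
  Vw_fix := fld_Vw_fix R
  Ip_quot := fld_Ip_quot R
  φp := frobP R
  pp := (p : ℚ_[l])
  χ_φp := chiQ_frob l R.hp (Ne.symm R.hℓp) R.Ap R.hAp (frobP_spec R)
  pp_ne := fld_pp_ne R
  φp_Vw := fld_φp_sq R (frobP_spec R)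
  g₀ := frob0 R
  ne := fld_ne R R.hq₀ R.hq₀p R.hq₀ℓ R.A₀ R.hA₀ (frob0_spec R)
  mink1 := mink1 R
  minkχ := minkχ R

@[simp] theorem linData_ρ : (linData R).ρ = rep (torL l J) l GQ := rfl
@[simp] theorem linData_χ : (linData R).χ = chiQ l := rfl
@[simp] theorem linData_Vm : (linData R).Vm = sub l (GmT R) ⊔ sub l (K0T R (adaptedOf R)) := rfl
@[simp] theorem linData_Vw : (linData R).Vw = sub l (WT R) := rfl
@[simp] theorem linData_Tl : (linData R).Tl = map l (TlT R) := rfl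
@[simp] theorem linData_l : (linData R).l = (l : ℚ_[l]) := rfl
@[simp] theorem linData_φ : (linData R).φ = (Kum.towerOf R).φ := rfl
@[simp] theorem linData_Il : (linData R).Il = (Kum.towerOf R).Il := rfl
@[simp] theorem linData_Ip : (linData R).Ip = (Kum.towerOf R).Ip := rfl

include R in
theorem finDimT : FiniteDimensional ℚ_[l] (VV (torL l J) l) := finiteDimensional (finT R)

theorem exists_linOut : ∃ Vb, LinOut (linData R) Vb :=
  haveI := finDimT R
  Lin.main (linData R)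

/-- the subspace `Vb` given by S15-LIN -/
def VbT : Submodule ℚ_[l] (VV (torL l J) l) :=
  (haveI := finDimT R; Lin.main (linData R)).choose

theorem linOut : LinOut (linData R) (VbT R) :=
  (haveI := finDimT R; Lin.main (linData R)).choose_spec

/-- the context of BRIDGE-OUT -/
def ctx : Out.Ctx (Kum.towerOf R) (torL l J) where
  fin := finT R
  div := divT R
  tors := fun x => by
    obtain ⟨r, hr⟩ := x.2
    exact ⟨r, Subtype.ext hr⟩
  cont := contT R
  U_triv := by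
    rintro σ ⟨q, hq, hqp, hql, A, hA, hσ⟩ x
    exact inertia_smul_eq R hq hqp hql A hA hσ x
  χZ := chiZ l
  χZ_spec := fun r σ => chiZ_sub_mem l ((Kum.towerFor_towerOf R).χ r σ)
  TlG := TlT R
  D := linData R
  hρ := rfl
  hχ := fun _ => rfl
  hTl := rfl
  hl := rfl
  hφ := rfl
  hIl := rfl
  hIp := rfl
  q := R.q₀
  hq := chiQ_frob l R.hq₀ R.hq₀ℓ R.A₀ R.hA₀ (frob0_spec R)
  Vb := VbT R
  out := linOut R

@[simp] theorem ctx_D : (ctx R).D = linData R := rfl
@[simp] theorem ctx_Vb : (ctx R).Vb = VbT R := rfl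

end Fermat.Agent.S15.Abs.A
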