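import Fermat.Agent.S15.Abs.A.TOp
import Fermat.Agent.S15.Abs.A.Arith
import Fermat.Agent.S15.Kum.Mink

/-!
# S15 ABS-A, BRIDGE-IN, file `Mink`: (MINK1), (MINKχ) on `V(G)`
-/

set_option autoImplicit false

noncomputable section

namespace Fermat.Agent.S15.Abs.A

open Fermat.Agent.S15 Fermat.Agent.S15.Abs.C Fermat.Agent.S15.V Fermat.Agent.S15.Lin

section general

variable {G : Type} [AddCommGroup G] [DistribMulAction GQ G] {l : ℕ} [Fact l.Prime]

/-- the subgroup of the `σ` acting on `Y / Y'` through the character `χ` -/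
def minkSub (χ : GQ →* ℤ_[l]) (Y' Y : Submodule ℚ_[l] (VV G l))
    (hY' : IsStab (rep G l GQ) Y') : Subgroup GQ where
  carrier := {σ | ∀ y ∈ Y, rep G l GQ σ y - (χ σ : ℚ_[l]) • y ∈ Y'}
  one_mem' := by
    intro y _
    rw [map_one, map_one]
    simp
  mul_mem' := by
    intro a b ha hb y hy
    have h1 : rep G l GQ (a * b) y - ((χ (a * b) : ℤ_[l]) : ℚ_[l]) • y =
        rep G l GQ a (rep G l GQ b y - (χ b : ℚ_[l]) • y) +
          (χ b : ℚ_[l]) • (rep G l GQ a y - (χ a : ℚ_[l]) • y) := by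
      rw [map_mul, map_mul, map_sub, map_smul, smul_sub, smul_smul, PadicInt.coe_mul,
        mul_comm (χ b : ℚ_[l])]
      simp
    rw [h1]
    exact Y'.add_mem (hY' a _ (hb y hy)) (Y'.smul_mem _ (ha y hy))
  inv_mem' := by
    intro a ha y hy
    have hu : (χ a⁻¹ : ℚ_[l]) * (χ a : ℚ_[l]) = 1 := by
      rw [← PadicInt.coe_mul, ← map_mul, inv_mul_cancel, map_one, PadicInt.coe_one]
    have h0 : rep G l GQ a⁻¹ (rep G l GQ a y) = y := by
      rw [← Module.End.mul_apply, ← map_mul, inv_mul_cancel, map_one, Module.End.one_apply]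
    have h1 : rep G l GQ a⁻¹ y - (χ a⁻¹ : ℚ_[l]) • y =
        -((χ a⁻¹ : ℚ_[l]) • rep G l GQ a⁻¹ (rep G l GQ a y - (χ a : ℚ_[l]) • y)) := by
      rw [map_sub, map_smul, h0, smul_sub, smul_smul, hu, one_smul]
      abel
    rw [h1]
    exact Y'.neg_mem (Y'.smul_mem _ (hY' _ _ (ha y hy)))

theorem mem_minkSub {χ : GQ →* ℤ_[l]} {Y' Y : Submodule ℚ_[l] (VV G l)}
    {hY' : IsStab (rep G l GQ) Y'} {σ : GQ} :
    σ ∈ minkSub χ Y' Y hY' ↔ ∀ y ∈ Y, rep G l GQ σ y - (χ σ : ℚ_[l]) • y ∈ Y' := Iff.rfl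

theorem minkSub_normal (χ : GQ →* ℤ_[l]) (Y' Y : Submodule ℚ_[l] (VV G l))
    (hY' : IsStab (rep G l GQ) Y') (hY : IsStab (rep G l GQ) Y) : (minkSub χ Y' Y hY').Normal := by
  refine ⟨fun σ hσ g y hy => ?_⟩
  have hχ : χ (g * σ * g⁻¹) = χ σ := by
    rw [map_mul, map_mul, mul_comm (χ g), mul_assoc, ← map_mul, mul_inv_cancel, map_one, mul_one]
  have h0 : rep G l GQ g (rep G l GQ g⁻¹ y) = y := by
    rw [← Module.End.mul_apply, ← map_mul, mul_inv_cancel, map_one, Module.End.one_apply]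
  have h1 : rep G l GQ (g * σ * g⁻¹) y - (χ (g * σ * g⁻¹) : ℚ_[l]) • y =
      rep G l GQ g (rep G l GQ σ (rep G l GQ g⁻¹ y) - (χ σ : ℚ_[l]) • rep G l GQ g⁻¹ y) := by
    rw [hχ, map_sub, map_smul, h0, map_mul, map_mul]
    rfl
  rw [h1]
  exact hY' _ _ (hσ _ (hY _ _ hy))

/-- Minkowski on `V(G)`: a subquotient on which all inertia groups act through `χ`. -/
theorem mink_general (hfin : {x : G | l • x = 0}.Finite)
    (hc : ∀ y : G, IsLocallyConstant (fun σ : GQ => σ • y)) (χ : GQ →* ℤ_[l])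
    (hχ : ∀ r : ℕ, IsLocallyConstant (fun σ : GQ => PadicInt.toZModPow r (χ σ)))
    (Y' Y : Submodule ℚ_[l] (VV G l)) (hY' : IsStab (rep G l GQ) Y')
    (hY : IsStab (rep G l GQ) Y)
    (hI : ∀ q : ℕ, q.Prime → ∃ A : ValuationSubring Qb, A.LiesOverPrime q ∧
      ∀ σ ∈ A.inertiaSubgroupIn ℚ, ∀ y ∈ Y, rep G l GQ σ y - (χ σ : ℚ_[l]) • y ∈ Y') :
    ∀ g, ∀ y ∈ Y, rep G l GQ g y - (χ g : ℚ_[l]) • y ∈ Y' := by
  have hN := minkSub_normal χ Y' Y hY' hY
  have htop : minkSub χ Y' Y hY' = ⊤ := by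
    refine Kum.eq_top_of_isClosed _ hN ?_ ?_
    · exact isClosed_setOf_forall_rep_sub_smul_mem hfin hc χ hχ Y' (Y : Set (VV G l))
    · intro q hq B hB σ hσ
      obtain ⟨A, hA, h⟩ := hI q hq
      obtain ⟨g, hg⟩ := Kum.inertia_conj hq A B hA hB
      have h1 : g⁻¹ * σ * g ∈ minkSub χ Y' Y hY' := h _ (hg σ hσ)
      have h2 := hN.conj_mem _ h1 g
      have h3 : g * (g⁻¹ * σ * g) * g⁻¹ = σ := by group
      rwa [h3] at h2
  intro g
  have : g ∈ minkSub χ Y' Y hY' := by rw [htop]; exact Subgroup.mem_top g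
  exact this

end general

variable {J : Type} [AddCommGroup J] [DistribMulAction GQ J] {p l : ℕ} [Fact l.Prime]

/-- inertia at `q ≠ p, l` acts trivially on `J[l^∞]` -/
theorem inertia_smul_eq (R : Raw J p l) {q : ℕ} (hq : q.Prime) (hqp : q ≠ p) (hql : q ≠ l)
    (A : ValuationSubring Qb) (hA : A.LiesOverPrime q) {σ : GQ} (hσ : σ ∈ A.inertiaSubgroupIn ℚ)
    (x : torL l J) : σ • x = x := by
  apply Subtype.ext
  have h1 := R.J1_inert q hq hqp A hA σ hσ x.1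
  have h2 : σ • x.1 - x.1 ∈ torInf J l := (torL l J).sub_mem (smul_mem_torL σ x.2) x.2
  exact sub_eq_zero.1 (R.J1_tor q hq hqp hql A hA _ h1 h2)

theorem exists_liesOver (q : ℕ) (hq : q.Prime) : ∃ A : ValuationSubring Qb, A.LiesOverPrime q :=
  Lib.Frobenius.exists_liesOverPrime q hq

/-- (MINK1) in the shape of the field `LinData.mink1` -/
theorem mink1 (R : Raw J p l) (Y' Y : Submodule ℚ_[l] (VV (torL l J) l))
    (hY' : IsStab (rep (torL l J) l GQ) Y') (hY : IsStab (rep (torL l J) l GQ) Y) (_hle : Y' ≤ Y)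
    (hp : ∀ σ ∈ R.Ap.inertiaSubgroupIn ℚ, ∀ y ∈ Y, rep (torL l J) l GQ σ y - y ∈ Y')
    (hl : ∀ σ ∈ R.Aℓ.inertiaSubgroupIn ℚ, ∀ y ∈ Y, rep (torL l J) l GQ σ y - y ∈ Y') :
    ∀ g, ∀ y ∈ Y, rep (torL l J) l GQ g y - y ∈ Y' := by
  have h := mink_general (finT R) (contT R) (1 : GQ →* ℤ_[l])
    (fun r => IsLocallyConstant.const (PadicInt.toZModPow r (1 : ℤ_[l]))) Y' Y hY' hY ?_
  · intro g y hy
    have := h g y hy
    simpa using this
  · intro q hq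
    by_cases hqp : q = p
    · subst hqp
      refine ⟨R.Ap, R.hAp, fun σ hσ y hy => ?_⟩
      simpa using hp σ hσ y hy
    by_cases hql : q = l
    · subst hql
      refine ⟨R.Aℓ, R.hAℓ, fun σ hσ y hy => ?_⟩
      simpa using hl σ hσ y hy
    obtain ⟨A, hA⟩ := exists_liesOver q hq
    refine ⟨A, hA, fun σ hσ y _ => ?_⟩
    have h1 : rep (torL l J) l GQ σ y = y := by
      ext x
      rw [rep_apply, inertia_smul_eq R hq hqp hql A hA hσ]
    rw [h1]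
    simp

/-- (MINKχ) in the shape of the field `LinData.minkχ` -/
theorem minkχ (R : Raw J p l) (Y' Y : Submodule ℚ_[l] (VV (torL l J) l))
    (hY' : IsStab (rep (torL l J) l GQ) Y') (hY : IsStab (rep (torL l J) l GQ) Y) (_hle : Y' ≤ Y)
    (hp : ∀ σ ∈ R.Ap.inertiaSubgroupIn ℚ, ∀ y ∈ Y, rep (torL l J) l GQ σ y - y ∈ Y')
    (hl : ∀ σ ∈ R.Aℓ.inertiaSubgroupIn ℚ, ∀ y ∈ Y,
      rep (torL l J) l GQ σ y - chiQ l σ • y ∈ Y') :
    ∀ g, ∀ y ∈ Y, rep (torL l J) l GQ g y - chiQ l g • y ∈ Y' := by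
  refine mink_general (finT R) (contT R) (chiZ l) (isLocallyConstant_chiZ l) Y' Y hY' hY ?_
  intro q hq
  by_cases hql : q = l
  · subst hql
    exact ⟨R.Aℓ, R.hAℓ, hl⟩
  by_cases hqp : q = p
  · subst hqp
    refine ⟨R.Ap, R.hAp, fun σ hσ y hy => ?_⟩
    rw [chiZ_inertia l hq hql R.Ap R.hAp hσ, PadicInt.coe_one, one_smul]
    exact hp σ hσ y hy
  obtain ⟨A, hA⟩ := exists_liesOver q hq
  refine ⟨A, hA, fun σ hσ y _ => ?_⟩
  have h1 : rep (torL l J) l GQ σ y = y := by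
    ext x
    rw [rep_apply, inertia_smul_eq R hq hqp hql A hA hσ]
  rw [h1, chiZ_inertia l hq hql A hA hσ, PadicInt.coe_one, one_smul, sub_self]
  exact Y'.zero_mem

end Fermat.Agent.S15.Abs.A
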