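import Fermat.Agent.S15.Abs.A.Base

/-!
# S15 ABS-A, BRIDGE-IN, file `TOp`: the operators `t_σ = σ + χ(σ) σ⁻¹` on `V(G)` at finite level
-/

set_option autoImplicit false

noncomputable section

namespace Fermat.Agent.S15.Abs.A

open Fermat.Agent.S15 Fermat.Agent.S15.Abs.C Fermat.Agent.S15.V Fermat.Agent.S15.Lin

section general

variable {G : Type} [AddCommGroup G] [DistribMulAction GQ G] {l : ℕ} [Fact l.Prime]

/-- a scalar `χ(σ)` at finite level -/
theorem chiQ_smul_apply (σ : GQ) (f : VV G l) (x : ℚ_[l]) {r k : ℕ} (hr : l ^ r • f x = 0)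
    (hk : IsCyc l r σ k) : (chiQ l σ • f) x = k • f x :=
  padicInt_smul_apply (chiZ l σ) k r (chiZ_sub_mem l hk) f x hr

/-- the level formula for `t_σ` -/
theorem tOp_apply_level (σ : GQ) (f : VV G l) (x : ℚ_[l]) {r k : ℕ} (hr : l ^ r • f x = 0)
    (hk : IsCyc l r σ k) :
    (tOp (rep G l GQ) (chiQ l) σ f) x = σ • f x + k • σ⁻¹ • f x := by
  rw [tOp_apply, V.add_apply, rep_apply, chiQ_smul_apply σ _ x (r := r) _ hk, rep_apply]
  rw [rep_apply, smul_comm, hr, smul_zero]

/-- a subgroup stable under the level operators gives a subspace stable under `t_σ` -/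
theorem tOp_mem_sub (H : AddSubgroup G)
    (hH : ∀ (r : ℕ) (σ : GQ) (k : ℕ), IsCyc l r σ k → ∀ x : G, l ^ r • x = 0 → x ∈ H →
      σ • x + k • σ⁻¹ • x ∈ H) (σ : GQ) (f : VV G l) (hf : f ∈ sub l H) :
    tOp (rep G l GQ) (chiQ l) σ f ∈ sub l H := by
  intro x
  obtain ⟨r, hr⟩ := apply_mem_torInf f x
  rw [tOp_apply_level σ f x hr (isCyc_chiN l r σ)]
  exact hH r σ _ (isCyc_chiN l r σ) _ hr (hf x)

/-- (CH) -/
theorem ch_of_level
    (h : ∀ (r : ℕ) (σ : GQ) (k : ℕ), IsCyc l r σ k → ∀ (τ : GQ) (x : G), l ^ r • x = 0 →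
      τ • (σ • x + k • σ⁻¹ • x) = σ • τ • x + k • σ⁻¹ • τ • x) :
    CH (rep G l GQ) (chiQ l) := by
  intro g τ f
  ext x
  obtain ⟨r, hr⟩ := apply_mem_torInf f x
  have hr' : l ^ r • (rep G l GQ τ f) x = 0 := by rw [rep_apply, smul_comm, hr, smul_zero]
  rw [tOp_apply_level g _ x hr' (isCyc_chiN l r g), rep_apply, rep_apply,
    tOp_apply_level g f x hr (isCyc_chiN l r g)]
  exact (h r g _ (isCyc_chiN l r g) τ _ hr).symm

theorem rep_mem_sub (H : AddSubgroup G) (σ : GQ) (hH : ∀ x ∈ H, σ • x ∈ H) (f : VV G l)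
    (hf : f ∈ sub l H) : rep G l GQ σ f ∈ sub l H := fun x => hH _ (hf x)

/-- injectivity of an operator on `V` from the finiteness of a kernel -/
theorem eq_zero_of_finite (hfin : {x : G | l • x = 0}.Finite) (S : Set G) (hS : S.Finite)
    (f : VV G l) (hf : ∀ x, f x ∈ S) : f = 0 := by
  -- the image of `f` is a finite divisible group
  have h1 : f ∈ sub l (AddSubgroup.closure (Set.range f)) := fun x =>
    AddSubgroup.subset_closure ⟨x, rfl⟩
  have hcl : (AddSubgroup.closure (Set.range f) : Set G) = Set.range f := by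
    have : (AddMonoidHom.range (f : ℚ_[l] →+ G) : Set G) = Set.range f := rfl
    rw [← this, AddSubgroup.closure_eq]
  have h2 : sub l (AddSubgroup.closure (Set.range f)) = ⊥ := by
    rw [sub_eq_bot_iff hfin]
    refine (hS.subset ?_ : (Set.range f).Finite).subset ?_
    · rintro _ ⟨x, rfl⟩
      exact hf x
    · intro y hy
      have h3 : y ∈ (AddSubgroup.closure (Set.range f) : Set G) := hy.1
      rwa [hcl] at h3
  rw [h2] at h1
  exact h1

end general

end Fermat.Agent.S15.Abs.A
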